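/-
S48 wall (W), block G-RED, seats G-FUND + G-RRK (helper7).  GENERIC.

* `fund_of_redModel` : for a reduction datum `R : GoodRed.RedModel K k F Fk` with `F / K(x)` finite:
  `F_k / k(x̄)` is finite and `[F_k : k(x̄)] ≤ [F : K(x)]`   (lifts of a `k(x̄)`-linearly independent
  family are `K(x)`-linearly independent: `GoodRed.RedModel.linearIndependent_lift`).
* `fund_finrank_eq` : hence `[F : K(x)] = [F_k : k(x̄)]` as soon as `≤` holds (the last clause of
  `IsBaseFun`).
* `isRRField_of_resElt` (G-RRK): `x̄` transcendental, `F_k / k(x̄)` finite separable ⟹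
  `IsRRField k F_k` for `F_k = resField A F₀` (`k` is algebraically closed).
-/
import Fermat.Agent.S48.W.G.Red.Defs
import Fermat.Agent.Lib.GoodRed.TraceRed
import Fermat.Agent.Lib.RR.OfSep
import Fermat.Agent.Lib.GaussInt.ModularInst

set_option autoImplicit false
set_option synthInstance.maxHeartbeats 400000

noncomputable section

namespace Fermat.Agent.S48WG

open ModularCurve AlgebraicCurve IntermediateField Fermat.Agent.GaussInt Fermat.Agent.RR
  Fermat.Agent.GoodRed

section abstract

variable {K k F Fk : Type} [Field K] [Field k] [Field F] [Field Fk] [Algebra K F] [Algebra k Fk]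

/-- a finite `k(x̄)`-linearly independent family of `F_k` has at most `[F : K(x)]` elements. -/
theorem fund_card_le (R : RedModel K k F Fk) [FiniteDimensional K⟮R.x⟯ F] {n : ℕ}
    (v : Fin n → Fk) (hv : LinearIndependent k⟮R.xbar⟯ v) :
    n ≤ Module.finrank K⟮R.x⟯ F := by
  classical
  choose wO hwO using fun i => R.rho_surj (v i)
  have hind : LinearIndependent k⟮R.xbar⟯ (fun i => R.rho (wO i)) := by
    have : (fun i => R.rho (wO i)) = v := funext hwO
    rw [this]
    exact hv
  have hlin := R.linearIndependent_lift wO hind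
  have := hlin.fintype_card_le_finrank
  simpa using this

/-- **(G-FUND)**, abstract form: `F_k / k(x̄)` is finite of degree at most `[F : K(x)]`. -/
theorem fund_of_redModel (R : RedModel K k F Fk) [FiniteDimensional K⟮R.x⟯ F] :
    FiniteDimensional k⟮R.xbar⟯ Fk ∧
      Module.finrank k⟮R.xbar⟯ Fk ≤ Module.finrank K⟮R.x⟯ F := by
  classical
  have hrank : Module.rank k⟮R.xbar⟯ Fk ≤ (Module.finrank K⟮R.x⟯ F : ℕ) := by
    apply rank_le
    intro s hs
    have hs' : LinearIndependent k⟮R.xbar⟯ (fun i : Fin s.card => ((s.equivFin.symm i : s) : Fk)) :=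
      hs.comp _ s.equivFin.symm.injective
    exact fund_card_le R _ hs'
  have hfin : FiniteDimensional k⟮R.xbar⟯ Fk := by
    rw [FiniteDimensional, ← Module.rank_lt_aleph0_iff]
    exact lt_of_le_of_lt hrank (Cardinal.nat_lt_aleph0 _)
  exact ⟨hfin, Module.finrank_le_of_rank_le hrank⟩

/-- the degrees are equal as soon as the degree does not drop. -/
theorem fund_finrank_eq (R : RedModel K k F Fk) [FiniteDimensional K⟮R.x⟯ F]
    (h : Module.finrank K⟮R.x⟯ F ≤ Module.finrank k⟮R.xbar⟯ Fk) :
    Module.finrank K⟮R.x⟯ F = Module.finrank k⟮R.xbar⟯ Fk :=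
  le_antisymm h (fund_of_redModel R).2

end abstract

section concrete

local notation "Kb" => AlgebraicClosure ℚ

variable {A : ValuationSubring Kb} {F₀ : IntermediateField ℚ (LaurentSeries ℚ)}

/-- **(G-FUND)** for the Gauss ring: given a reduction datum `R` of `F = ℚ̄ F₀` onto
`F_k = resField A F₀` whose base parameter is `x` (with residue `x̄ = resElt hx`): `F_k / k(x̄)` is
finite of degree at most `[F : ℚ̄(x)]`. -/
theorem fund_of_barElt {x : LaurentSeries Kb} (hx : x ∈ gaussSub A (laurentBaseChange Kb F₀))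
    (R : RedModel Kb (IsLocalRing.ResidueField A) ↥(laurentBaseChange Kb F₀) ↥(resField A F₀))
    (hRx : R.x = barElt hx) (hRxbar : R.xbar = resElt hx)
    (hfin : FiniteDimensional Kb⟮barElt hx⟯ ↥(laurentBaseChange Kb F₀)) :
    FiniteDimensional (IsLocalRing.ResidueField A)⟮resElt hx⟯ ↥(resField A F₀) ∧
      Module.finrank (IsLocalRing.ResidueField A)⟮resElt hx⟯ ↥(resField A F₀) ≤
        Module.finrank Kb⟮barElt hx⟯ ↥(laurentBaseChange Kb F₀) := by
  rw [← hRx] at hfin
  have h := @fund_of_redModel _ _ _ _ _ _ _ _ _ _ R hfin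
  rw [hRx, hRxbar] at h
  exact h

/-- **(G-RRK)** `x̄` transcendental, `F_k / k(x̄)` finite separable ⟹ the Riemann-Roch package of
the residue field `F_k = resField A F₀`. -/
theorem isRRField_of_resElt {x : LaurentSeries Kb} (hx : x ∈ gaussSub A (laurentBaseChange Kb F₀))
    (htr : Transcendental (IsLocalRing.ResidueField A) (resElt hx))
    (hfin : FiniteDimensional (IsLocalRing.ResidueField A)⟮resElt hx⟯ ↥(resField A F₀))
    (hsep : Algebra.IsSeparable (IsLocalRing.ResidueField A)⟮resElt hx⟯ ↥(resField A F₀)) :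
    IsRRField (IsLocalRing.ResidueField A) ↥(resField A F₀) := by
  haveI : IsAlgClosed (IsLocalRing.ResidueField A) := isAlgClosed_residue A
  exact isRRField_of_separable htr

end concrete

end Fermat.Agent.S48WG
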