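/-
S48 wall (W), block G-RED, seat G-GENUS (helper2): the GENERIC genus equality.

`F₀ ⊆ ℚ((q))` any field generated by integral series (`IsIntGen A F₀`), `A` a valuation ring of
`ℚ̄` over `ℓ`, `F = ℚ̄ F₀`, `Fk = resField A F₀`, `x` a base function (`IsBaseFun`) with the
fundamental inequality `[Fk : k(x̄)] ≤ [F : ℚ̄(x)]` (seat G-FUND) and BRANCH DATA `S`:

  `genusFF ℚ̄ F = genusFF k Fk`.

* `genusFF_le_of_branchData`, `genusFF_eq_of_redModel`: the statement for an abstract
  `GoodRed.RedModel` (discriminant chain + Riemann-Hurwitz + Deuring's inequality);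
* `genusFF_eq_of_branch`: the seat statement (on the `redModel` / `redValSetup` of G-MODEL).
-/
import Mathlib
import Fermat.Agent.S48.W.G.Red.Defs
import Fermat.Agent.S48.W.G.Red.Model
import Fermat.Agent.Lib.GoodRed.Final
import Fermat.Agent.Lib.GoodRed.Genus
import Fermat.Agent.Lib.GaussInt.DeuringInst
import Fermat.Agent.Lib.Deuring.FundIneq
import Fermat.Agent.Lib.FrobTrace.Residue

set_option autoImplicit false
set_option linter.unusedSectionVars false
set_option linter.style.haveILetI false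
set_option synthInstance.maxHeartbeats 400000

noncomputable section

namespace Fermat.Agent.S48WG

open ModularCurve AlgebraicCurve IntermediateField Fermat.Agent.GaussInt Fermat.Agent.RR
  Fermat.Agent.GoodRed

/-! ### abstract form -/

section Abstract

variable {K k F Fk : Type} [Field K] [Field k] [Field F] [Field Fk] [Algebra K F] [Algebra k Fk]

/-- **`g(F) ≤ g(Fk)`** from degree and branch data (discriminant chain in both charts and
Riemann-Hurwitz). -/
theorem genusFF_le_of_branchData [IsAlgClosed K] [CharZero K] [IsAlgClosed k]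
    (M : RedModel K k F Fk) (n : ℕ) (hdeg : DegData M n) (BD : BranchData M n)
    (hS : ∀ c ∈ BD.S, c ≠ 0 → c⁻¹ ∈ M.A)
    (hK : IsRRField K F) (hk : IsRRField k Fk) :
    genusFF K F ≤ genusFF k Fk :=
  genusFF_le_of_fibreBound M n hdeg BD hK hk
    (discChain K k F Fk M n hdeg BD).2
    (FibreBound.at_infty (fibreBound_inv M n hdeg BD hS))

/-- **genus equality** for an abstract reduction datum. -/
theorem genusFF_eq_of_redModel [IsAlgClosed K] [CharZero K] [IsAlgClosed k] [Infinite k]
    (M : RedModel K k F Fk) (n : ℕ) (hdeg : DegData M n) (BD : BranchData M n)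
    (hS : ∀ c ∈ BD.S, c ≠ 0 → c⁻¹ ∈ M.A)
    (V : Fermat.Agent.Deuring.ValSetup K F k Fk) (hV : Fermat.Agent.Deuring.HasLattice V) :
    genusFF K F = genusFF k Fk :=
  le_antisymm (genusFF_le_of_branchData M n hdeg BD hS V.hF V.hFk)
    (Fermat.Agent.Deuring.genusFF_le V hV)

end Abstract

/-! ### the Gauss valuation of `F = ℚ̄ F₀` -/

local notation "Kb" => AlgebraicClosure ℚ

variable {A : ValuationSubring Kb} {F₀ : IntermediateField ℚ (LaurentSeries ℚ)} {ℓ : ℕ}

/-- **(G-GENUS)** the generic genus equality: base function + fundamental inequality + branch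
data `⟹` `g(F) = g(Fk)`. -/
theorem genusFF_eq_of_branch (hℓ : ℓ.Prime) (hA : A.LiesOverPrime ℓ) (hint : IsIntGen A F₀)
    (hsurj : ResSurj A F₀)
    (hF : IsRRField Kb ↥(laurentBaseChange Kb F₀))
    (hFk : IsRRField (IsLocalRing.ResidueField A) ↥(resField A F₀))
    {x : LaurentSeries Kb} (hx : x ∈ gaussSub A (laurentBaseChange Kb F₀))
    (hbase : IsBaseFun A F₀ hx)
    (hfund : Module.finrank (IsLocalRing.ResidueField A)⟮resElt hx⟯ ↥(resField A F₀) ≤
      Module.finrank Kb⟮barElt hx⟯ ↥(laurentBaseChange Kb F₀))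
    (S : Finset Kb) (hSA : ∀ c ∈ S, c ∈ A)
    (hSinj : ∀ c ∈ S, ∀ c' ∈ S, ∀ (hc : c ∈ A) (hc' : c' ∈ A),
      IsLocalRing.residue A ⟨c, hc⟩ = IsLocalRing.residue A ⟨c', hc'⟩ → c = c')
    (hSunit : ∀ c ∈ S, c ≠ 0 → c⁻¹ ∈ A)
    (hunram : ∀ c : Kb, c ∉ S → fibreCard Kb (barElt hx) c =
      Module.finrank Kb⟮barElt hx⟯ ↥(laurentBaseChange Kb F₀)) :
    genusFF Kb ↥(laurentBaseChange Kb F₀) =
      genusFF (IsLocalRing.ResidueField A) ↥(resField A F₀) := by
  haveI : IsAlgClosed (IsLocalRing.ResidueField A) :=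
    Fermat.Agent.FrobTrace.isAlgClosed_residueField A
  haveI : Infinite (IsLocalRing.ResidueField A) := IsAlgClosed.instInfinite
  obtain ⟨-, hfd, hxt, hfdk, hsep, hle⟩ := hbase
  have h : GaussHyp A F₀ ℓ := ⟨hℓ, hA, hint⟩
  have hdeg : DegData (redModel h hsurj hx hxt)
      (Module.finrank Kb⟮barElt hx⟯ ↥(laurentBaseChange Kb F₀)) :=
    { deg := rfl
      degk := le_antisymm hfund hle
      sepk := hsep
      pos := Module.finrank_pos }
  let BD : BranchData (redModel h hsurj hx hxt)
      (Module.finrank Kb⟮barElt hx⟯ ↥(laurentBaseChange Kb F₀)) :=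
    { S := S
      S_mem := hSA
      S_inj := hSinj
      unram := hunram }
  exact genusFF_eq_of_redModel (redModel h hsurj hx hxt) _ hdeg BD hSunit
    (redValSetup h hsurj hF hFk) (hasLattice_redValSetup h hsurj hF hFk)

end Fermat.Agent.S48WG
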