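/-
S48 wall (W), block G-RED, seat G-ASM (helper89): the ASSEMBLY of G-RED at `p ≥ 5`.

  `gAsmFive : GAsmFiveStatement`
    = `IgusaOneStatement → BranchOneStatement → ∀ M, 2 ≤ M → GoodRedOneFive M`.

For a place `A` of `ℚ̄` over `p ≥ 5`, `p ∤ M`, and the base function `x = j(q^M)` of G-IGUSA:
* `IsRRField ℚ̄ (ℚ̄ F₁(M))`            : `isRRField_of_charZero` (base function);
* `IsRRField k (resField A F₁(M))`    : `isRRField_of_resElt` (G-RRK, helper7);
* `ResSurj`                           : `resSurj` (G-RES, helper5);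
* genus equality                      : `genusFF_eq_of_branch` (G-GENUS, helper2) with the
  fundamental inequality `fund_of_barElt` (G-FUND, helper7), `isIntGen_FOne` (G-INT, helper5)
  and the branch set `S = {0, 1728}` (`GoodRed.branchSet`; `1728` is a unit at `p ≥ 5`).
-/
import Mathlib
import Fermat.Agent.S48.W.G.Red.Igusa.DatDefs
import Fermat.Agent.S48.W.G.Red.Genus
import Fermat.Agent.S48.W.G.Red.Fund
import Fermat.Agent.S48.W.G.Red.Res
import Fermat.Agent.S48.W.G.Red.Int
import Fermat.Agent.Lib.GoodRed.ModularData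

set_option autoImplicit false
set_option linter.unusedSectionVars false
set_option linter.style.haveILetI false
set_option synthInstance.maxHeartbeats 400000

noncomputable section

namespace Fermat.Agent.S48WG

open ModularCurve AlgebraicCurve IntermediateField Fermat.Agent.GaussInt Fermat.Agent.RR
  Fermat.Agent.GoodRed Fermat.Agent.S48W

local notation "Kb" => AlgebraicClosure ℚ

/-- the nonzero branch values `0, 1728` are units at a place over `ℓ ∉ {2, 3}`. -/
theorem asm5_inv_mem_branchSet {ℓ : ℕ} (hℓ : ℓ.Prime) {A : ValuationSubring Kb}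
    (hA : A.LiesOverPrime ℓ) (h2 : ℓ ≠ 2) (h3 : ℓ ≠ 3) :
    ∀ c ∈ branchSet, c ≠ 0 → c⁻¹ ∈ A := by
  intro c hc h0
  rcases mem_branchSet.mp hc with rfl | rfl
  · exact absurd rfl h0
  · obtain ⟨u, hu⟩ := isUnit_1728 hℓ hA h2 h3
    have h1 : (((u⁻¹ : Aˣ) : A) : Kb) = (1728 : Kb)⁻¹ := by
      have h2 : ((u : A) : Kb) * (((u⁻¹ : Aˣ) : A) : Kb) = 1 :=
        congrArg (Subtype.val : A → Kb) (u.mul_inv)
      rw [hu] at h2
      have h3 : (((1728 : ℕ) : A) : Kb) = 1728 := by
        show ((1728 : ℕ) : Kb) = 1728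
        norm_num
      rw [h3] at h2
      exact eq_inv_of_mul_eq_one_right h2
    rw [← h1]
    exact ((u⁻¹ : Aˣ) : A).2

theorem asm5_mem_branchSet {A : ValuationSubring Kb} : ∀ c ∈ branchSet, c ∈ A := by
  intro c hc
  rcases mem_branchSet.mp hc with rfl | rfl
  · exact A.zero_mem
  · have h := (((1728 : ℕ) : A)).2
    have e : ((((1728 : ℕ) : A)) : Kb) = 1728 := by
      show ((1728 : ℕ) : Kb) = 1728
      norm_num
    rw [e] at h
    exact h

/-- **(G-ASM), generic form**: the good reduction input from a base function with branch values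
in `{0, 1728}`, at a place over `ℓ ≥ 5`. -/
theorem redInput_of_baseFun {A : ValuationSubring Kb}
    {F₀ : IntermediateField ℚ (LaurentSeries ℚ)} {ℓ : ℕ} (hℓ : ℓ.Prime) (h5 : 5 ≤ ℓ)
    (hA : A.LiesOverPrime ℓ) (hint : IsIntGen A F₀)
    {x : LaurentSeries Kb} (hx : x ∈ gaussSub A (laurentBaseChange Kb F₀))
    (hbase : IsBaseFun A F₀ hx)
    (hbranch : ∀ c : Kb, c ≠ 0 → c ≠ 1728 →
      fibreCard Kb (barElt hx) c = Module.finrank Kb⟮barElt hx⟯ ↥(laurentBaseChange Kb F₀)) :
    RedInput A F₀ := by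
  have h2 : ℓ ≠ 2 := by omega
  have h3 : ℓ ≠ 3 := by omega
  have hsurj : ResSurj A F₀ := resSurj A F₀
  have hbase' := hbase
  obtain ⟨htr, hfd, htrk, hfdk, hsepk, hle⟩ := hbase
  have hF : IsRRField Kb ↥(laurentBaseChange Kb F₀) := isRRField_of_charZero ⟨htr, hfd⟩
  have hFk : IsRRField (IsLocalRing.ResidueField A) ↥(resField A F₀) :=
    isRRField_of_resElt hx htrk hfdk hsepk
  have h : GaussHyp A F₀ ℓ := redHyp hℓ hA hint
  have hfund := (fund_of_barElt hx (redModel h hsurj hx htrk) rfl rfl hfd).2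
  refine ⟨hF, hFk, hsurj, ?_, x, hx, hbase'⟩
  refine genusFF_eq_of_branch hℓ hA hint hsurj hF hFk hx hbase' hfund branchSet
    asm5_mem_branchSet (residue_inj_branchSet hℓ hA h2 h3)
    (asm5_inv_mem_branchSet hℓ hA h2 h3) ?_
  intro c hc
  rw [mem_branchSet, not_or] at hc
  exact hbranch c hc.1 hc.2

/-- **(G-ASM)** the assembly of G-RED at `p ≥ 5`. -/
theorem gAsmFive : GAsmFiveStatement := by
  intro hIg hBr M _ hM p hp h5 hpM A hA
  obtain ⟨x, hx, hxe, hbase⟩ := hIg M hM p hp hpM A hA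
  exact redInput_of_baseFun hp h5 hA (isIntGen_FOne A M) hx hbase
    (fun c hc0 hc => hBr M hM (barElt hx) hxe c hc0 hc)

end Fermat.Agent.S48WG
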