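/-
S48 wall (W), block G-RED, seat G-BRANCH (helper7): TOP FILE.

`F₀ ⊆ ℚ((q))`, `F = ℚ̄ F₀`, `x` an element of the Gauss ring of `F` at `A`, and an embedding
`φ : F →ₐ[ℚ̄] LHb M` into helper24's ambient field with `φ x = j` (for `F₀ = FOne M`,
`x = j(q^M)`: the embedding of IG-DEG0, convention of hub A1).  Then

* `gBranch_of_emb`     : the hypothesis `hunram` of `genusFF_eq_of_branch` with `S = {0, 1728}`;
* `genusFF_eq_of_emb`  : the genus equality `g(F) = g(F_k)` at every `A` over `ℓ ≥ 5`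
                         (G-GENUS + G-BRANCH).
-/
import Mathlib
import Fermat.Agent.S48.W.G.Red.Genus
import Fermat.Agent.S48.W.G.Red.Branch.SHyp

set_option autoImplicit false
set_option linter.style.haveILetI false
set_option synthInstance.maxHeartbeats 400000

noncomputable section

namespace Fermat.Agent.S48WG

open ModularCurve AlgebraicCurve IntermediateField Fermat.Agent.GaussInt Fermat.Agent.RR
  Fermat.Agent.GoodRed Fermat.Agent.S48WKron

local notation "Kb" => AlgebraicClosure ℚ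

variable {A : ValuationSubring Kb} {F₀ : IntermediateField ℚ (LaurentSeries ℚ)} {ℓ : ℕ}
  {M : ℕ} [NeZero M]

/-- **(G-BRANCH)** the fibres of `x` outside `{0, 1728}` are unramified. -/
theorem gBranch_of_emb {x : LaurentSeries Kb} (hx : x ∈ gaussSub A (laurentBaseChange Kb F₀))
    (φ : ↥(laurentBaseChange Kb F₀) →ₐ[Kb] LHb M) (hφ : φ (barElt hx) = jLHb M) :
    ∀ c : Kb, c ∉ brS → fibreCard Kb (barElt hx) c =
      Module.finrank Kb⟮barElt hx⟯ ↥(laurentBaseChange Kb F₀) :=
  br_hunram_of_emb φ (barElt hx) hφ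

/-- **(G-GENUS + G-BRANCH)** the genus equality at `A` over `ℓ ≥ 5`. -/
theorem genusFF_eq_of_emb (hℓ : ℓ.Prime) (h5 : 5 ≤ ℓ) (hA : A.LiesOverPrime ℓ)
    (hint : IsIntGen A F₀) (hsurj : ResSurj A F₀)
    (hF : IsRRField Kb ↥(laurentBaseChange Kb F₀))
    (hFk : IsRRField (IsLocalRing.ResidueField A) ↥(resField A F₀))
    {x : LaurentSeries Kb} (hx : x ∈ gaussSub A (laurentBaseChange Kb F₀))
    (hbase : IsBaseFun A F₀ hx)
    (hfund : Module.finrank (IsLocalRing.ResidueField A)⟮resElt hx⟯ ↥(resField A F₀) ≤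
      Module.finrank Kb⟮barElt hx⟯ ↥(laurentBaseChange Kb F₀))
    (φ : ↥(laurentBaseChange Kb F₀) →ₐ[Kb] LHb M) (hφ : φ (barElt hx) = jLHb M) :
    genusFF Kb ↥(laurentBaseChange Kb F₀) =
      genusFF (IsLocalRing.ResidueField A) ↥(resField A F₀) :=
  genusFF_eq_of_branch hℓ hA hint hsurj hF hFk hx hbase hfund brS (brS_mem A)
    (brS_inj hℓ h5 hA) (brS_unit hℓ h5 hA) (gBranch_of_emb hx φ hφ)

end Fermat.Agent.S48WG
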